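import Fermat.Agent.S48.HK.Dia
import Fermat.Prelude.Def_ModularForm_HeckeOperator
import Fermat.Prelude.Thm_ModularForm_heckeT_slash_eq_self_of_mem_Gamma0

set_option autoImplicit false

/-!
# S48 / HK : the Hecke operator `T_p` for `Γ₁(M)` on the level of functions

`T_p f = U_p f + (⟨p⟩ f) ∣[k] diag(p,1)`; for `g ∈ Γ₀(M)`: `(T_p f) ∣ g = T_p (f ∣ g)`.
-/

namespace Fermat.Agent.S48.HK

open CongruenceSubgroup UpperHalfPlane ModularForm
open scoped MatrixGroups ModularForm Manifold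

noncomputable section

variable {M : ℕ} [NeZero M]

/-- primes not dividing the level. -/
abbrev GoodPrime (M : ℕ) : Type := {p : ℕ // p.Prime ∧ ¬ p ∣ M}

/-- the class of a good prime in `(ℤ/M)ˣ`. -/
def GoodPrime.unit (p : GoodPrime M) : (ZMod M)ˣ :=
  ZMod.unitOfCoprime p.1 ((Nat.Prime.coprime_iff_not_dvd p.2.1).mpr p.2.2)

@[simp] theorem GoodPrime.coe_unit (p : GoodPrime M) : ((p.unit : (ZMod M)ˣ) : ZMod M) = (p.1 : ZMod M) :=
  ZMod.coe_unitOfCoprime _ _

/-- the function level Hecke operator for `Γ₁(M)`. -/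
def heckeFun (k : ℤ) (p : GoodPrime M) (f : ℍ → ℂ) : ℍ → ℂ :=
  ModularForm.heckeU k p.1 f + (f ∣[k] diaRep M p.unit) ∣[k] ModularForm.heckeDiagMatrix p.1

section CosetAux

open Matrix.SpecialLinearGroup
open P2MW.S_ModularForm_heckeT_slash_eq_self_of_mem_Gamma0.ModularForm.HeckeSlashInvariance
open scoped OnePoint

section commutation

variable {p : ℕ} (hp : p ≠ 0)
include hp

theorem Coset_heckeMatrix_mul_of_eq (g : SL(2, ℤ)) (j j' : ℕ) (e : ℤ)
    (he : g 0 1 + j * g 1 1 = j' * (g 0 0 + j * g 1 0) + p * e) :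
    ∃ g' : SL(2, ℤ), g' 1 0 = p * g 1 0 ∧ g' 1 1 = g 1 1 - g 1 0 * j' ∧
      heckeMatrix p j * mapGL ℝ g = mapGL ℝ g' * heckeMatrix p j' := by
  have hdet := det_eq g
  refine ⟨⟨!![g 0 0 + j * g 1 0, e; p * g 1 0, g 1 1 - g 1 0 * j'], ?_⟩, rfl, rfl, ?_⟩
  · rw [Matrix.det_fin_two_of]
    linear_combination hdet + (g 1 0) * he
  · ext i j
    fin_cases i <;> fin_cases j <;>
      simp [hp, Matrix.mul_apply, Fin.sum_univ_two]
    all_goals first
      | (have := congrArg (Int.cast : ℤ → ℝ) he; push_cast at this ⊢; linear_combination this)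
      | (have := congrArg (Int.cast : ℤ → ℝ) he; push_cast at this ⊢; linear_combination -this)
      | ring1

theorem Coset_heckeMatrix_mul_of_eq' (g : SL(2, ℤ)) (j : ℕ) (e : ℤ)
    (he : g 0 0 + j * g 1 0 = p * e) :
    ∃ g' : SL(2, ℤ), g' 1 0 = g 1 0 ∧ g' 1 1 = p * g 1 1 ∧
      heckeMatrix p j * mapGL ℝ g = mapGL ℝ g' * heckeDiagMatrix p := by
  have hdet := det_eq g
  refine ⟨⟨!![e, g 0 1 + j * g 1 1; g 1 0, p * g 1 1], ?_⟩, rfl, rfl, ?_⟩
  · rw [Matrix.det_fin_two_of]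
    linear_combination hdet - (g 1 1) * he
  · ext i j
    fin_cases i <;> fin_cases j <;>
      simp [hp, Matrix.mul_apply, Fin.sum_univ_two]
    all_goals first
      | (have := congrArg (Int.cast : ℤ → ℝ) he; push_cast at this ⊢; linear_combination this)
      | (have := congrArg (Int.cast : ℤ → ℝ) he; push_cast at this ⊢; linear_combination -this)
      | ring1

theorem Coset_heckeDiagMatrix_mul_of_eq (g : SL(2, ℤ)) (j' : ℕ) (e : ℤ)
    (he : g 1 1 = g 1 0 * j' + p * e) :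
    ∃ g' : SL(2, ℤ), g' 1 0 = g 1 0 ∧ g' 1 1 = e ∧
      heckeDiagMatrix p * mapGL ℝ g = mapGL ℝ g' * heckeMatrix p j' := by
  have hdet := det_eq g
  refine ⟨⟨!![p * g 0 0, g 0 1 - g 0 0 * j'; g 1 0, e], ?_⟩, rfl, rfl, ?_⟩
  · rw [Matrix.det_fin_two_of]
    linear_combination hdet - (g 0 0) * he
  · ext i j
    fin_cases i <;> fin_cases j <;>
      simp [hp, Matrix.mul_apply, Fin.sum_univ_two]
    all_goals first
      | (have := congrArg (Int.cast : ℤ → ℝ) he; push_cast at this ⊢; linear_combination this)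
      | (have := congrArg (Int.cast : ℤ → ℝ) he; push_cast at this ⊢; linear_combination -this)
      | ring1

theorem Coset_heckeDiagMatrix_mul_of_eq' (g : SL(2, ℤ)) (e : ℤ) (he : g 1 0 = p * e) :
    ∃ g' : SL(2, ℤ), g' 1 0 = e ∧ g' 1 1 = g 1 1 ∧
      heckeDiagMatrix p * mapGL ℝ g = mapGL ℝ g' * heckeDiagMatrix p := by
  have hdet := det_eq g
  refine ⟨⟨!![g 0 0, p * g 0 1; e, g 1 1], ?_⟩, rfl, rfl, ?_⟩
  · rw [Matrix.det_fin_two_of]
    linear_combination hdet + (g 0 1) * he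
  · ext i j
    fin_cases i <;> fin_cases j <;>
      simp [hp, Matrix.mul_apply, Fin.sum_univ_two]
    all_goals first
      | (have := congrArg (Int.cast : ℤ → ℝ) he; push_cast at this ⊢; linear_combination this)
      | (have := congrArg (Int.cast : ℤ → ℝ) he; push_cast at this ⊢; linear_combination -this)
      | ring1

end commutation

/-- the weight `p` at `∞`, `1` at the finite points. -/
def Coset_wt (N p : ℕ) (x : OnePoint (ZMod p)) : ZMod N := x.elim (p : ZMod N) (fun _ => 1)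

theorem Coset_heckeRep_mul {p : ℕ} [Fact p.Prime] {N : ℕ} (hpN : ¬ p ∣ N) (g : SL(2, ℤ))
    (hg : (N : ℤ) ∣ g 1 0) (x : OnePoint (ZMod p)) :
    ∃ g' : SL(2, ℤ), (N : ℤ) ∣ g' 1 0 ∧
      Coset_wt N p x * ((g' 1 1 : ℤ) : ZMod N)
        = ((g 1 1 : ℤ) : ZMod N) * Coset_wt N p (redMatrix p g • x) ∧
      heckeRep p x * mapGL ℝ g = mapGL ℝ g' * heckeRep p (redMatrix p g • x) := by
  have hp : p ≠ 0 := (Fact.out : p.Prime).ne_zero
  have hg0 : ((g 1 0 : ℤ) : ZMod N) = 0 := (ZMod.intCast_zmod_eq_zero_iff_dvd _ _).mpr hg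
  induction x using OnePoint.rec with
  | infty =>
    rw [OnePoint.smul_infty_eq_ite]
    by_cases hc : ((g 1 0 : ℤ) : ZMod p) = 0
    · rw [if_pos (by simpa using hc), heckeRep_infty]
      obtain ⟨e, he⟩ := (ZMod.intCast_zmod_eq_zero_iff_dvd _ _).mp hc
      obtain ⟨g', hg', hg'', hmul⟩ := Coset_heckeDiagMatrix_mul_of_eq' hp g e he
      refine ⟨g', ?_, ?_, hmul⟩
      · rw [hg']
        have hcop : IsCoprime (N : ℤ) (p : ℤ) :=
          Nat.isCoprime_iff_coprime.mpr ((Nat.Prime.coprime_iff_not_dvd Fact.out).mpr hpN).symm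
        exact hcop.dvd_of_dvd_mul_left (he ▸ hg)
      · rw [hg'']
        exact mul_comm _ _
    · rw [if_neg (by simpa using hc), heckeRep_infty, heckeRep_coe]
      set y : ZMod p := redMatrix p g 0 0 / redMatrix p g 1 0
        with hy
      obtain ⟨e, he⟩ : (p : ℤ) ∣ g 1 1 - g 1 0 * y.val := by
        rw [← ZMod.intCast_zmod_eq_zero_iff_dvd]
        push_cast
        rw [ZMod.natCast_zmod_val, hy, redMatrix_apply_zero_zero, redMatrix_apply_one_zero,
          mul_div_cancel₀ _ hc, sub_self]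
      obtain ⟨g', hg', hg'', hmul⟩ :=
        Coset_heckeDiagMatrix_mul_of_eq hp g y.val e (by linear_combination he)
      refine ⟨g', hg' ▸ hg, ?_, hmul⟩
      rw [hg'']
      show (p : ZMod N) * ((e : ℤ) : ZMod N) = ((g 1 1 : ℤ) : ZMod N) * 1
      have h2 := congrArg (Int.cast : ℤ → ZMod N) he
      push_cast at h2
      rw [hg0] at h2
      linear_combination -h2
  | coe j =>
    rw [OnePoint.smul_some_eq_ite]
    by_cases h : redMatrix p g 1 0 * j + redMatrix p g 1 1 = 0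
    · rw [if_pos h, heckeRep_infty, heckeRep_coe]
      rw [redMatrix_apply_one_zero, redMatrix_apply_one_one] at h
      obtain ⟨e, he⟩ : (p : ℤ) ∣ g 0 0 + j.val * g 1 0 := by
        rw [← ZMod.intCast_zmod_eq_zero_iff_dvd]
        push_cast
        rw [ZMod.natCast_zmod_val]
        linear_combination h
      obtain ⟨g', hg', hg'', hmul⟩ := Coset_heckeMatrix_mul_of_eq' hp g j.val e he
      refine ⟨g', hg' ▸ hg, ?_, hmul⟩
      rw [hg'']
      show (1 : ZMod N) * (((p : ℤ) * g 1 1 : ℤ) : ZMod N) = ((g 1 1 : ℤ) : ZMod N) * (p : ZMod N)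
      push_cast
      ring
    · rw [if_neg h, heckeRep_coe, heckeRep_coe]
      set y : ZMod p := (redMatrix p g 0 0 * j + redMatrix p g 0 1) /
        (redMatrix p g 1 0 * j + redMatrix p g 1 1) with hy
      obtain ⟨e, he⟩ : (p : ℤ) ∣ g 0 1 + j.val * g 1 1 - y.val * (g 0 0 + j.val * g 1 0) := by
        rw [← ZMod.intCast_zmod_eq_zero_iff_dvd]
        push_cast
        rw [ZMod.natCast_zmod_val, ZMod.natCast_zmod_val,
          show ((g 0 0 : ℤ) : ZMod p) + j * ((g 1 0 : ℤ) : ZMod p)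
            = redMatrix p g 1 0 * j + redMatrix p g 1 1 by
              rw [redMatrix_apply_one_zero, redMatrix_apply_one_one]; ring,
          hy, div_mul_cancel₀ _ h, redMatrix_apply_zero_zero, redMatrix_apply_zero_one]
        ring
      obtain ⟨g', hg', hg'', hmul⟩ :=
        Coset_heckeMatrix_mul_of_eq hp g j.val y.val e (by linear_combination he)
      refine ⟨g', hg' ▸ dvd_mul_of_dvd_right hg _, ?_, hmul⟩
      rw [hg'']
      show (1 : ZMod N) * ((g 1 1 - g 1 0 * (y.val : ℤ) : ℤ) : ZMod N)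
        = ((g 1 1 : ℤ) : ZMod N) * 1
      push_cast
      rw [hg0]
      ring

/-- lower right entry of a product in `Γ₀(N)`. -/
theorem Coset_mul_apply_one_one {N : ℕ} (A B : SL(2, ℤ)) (hA : A ∈ Gamma0 N) :
    (((A * B) 1 1 : ℤ) : ZMod N) = ((A 1 1 : ℤ) : ZMod N) * ((B 1 1 : ℤ) : ZMod N) := by
  have hA0 : ((A 1 0 : ℤ) : ZMod N) = 0 := Gamma0_mem.mp hA
  rw [Matrix.SpecialLinearGroup.coe_mul, Matrix.mul_apply, Fin.sum_univ_two]
  push_cast
  rw [hA0]
  ring

/-- the diamond representative at `∞`, the identity at the finite points. -/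
def Coset_dl (p : GoodPrime M) (x : OnePoint (ZMod p.1)) : SL(2, ℤ) :=
  x.elim (diaRep M p.unit) (fun _ => 1)

theorem Coset_dl_mem (p : GoodPrime M) (x : OnePoint (ZMod p.1)) : Coset_dl p x ∈ Gamma0 M := by
  induction x using OnePoint.rec with
  | infty => exact diaRep_mem M p.unit
  | coe j => exact Subgroup.one_mem _

theorem Coset_dl_apply (p : GoodPrime M) (x : OnePoint (ZMod p.1)) :
    ((Coset_dl p x 1 1 : ℤ) : ZMod M) = Coset_wt M p.1 x := by
  induction x using OnePoint.rec with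
  | infty =>
    show ((diaRep M p.unit 1 1 : ℤ) : ZMod M) = (p.1 : ZMod M)
    rw [diaRep_apply, GoodPrime.coe_unit]
  | coe j =>
    show (((1 : SL(2, ℤ)) 1 1 : ℤ) : ZMod M) = 1
    simp

theorem Coset_heckeFun_eq_sum (k : ℤ) (p : GoodPrime M) [NeZero p.1] (f : ℍ → ℂ) :
    heckeFun k p f = ∑ x : OnePoint (ZMod p.1), (f ∣[k] Coset_dl p x) ∣[k] heckeRep p.1 x := by
  rw [heckeFun, heckeU_eq_sum_zmod, add_comm]
  refine Eq.trans ?_ (Fintype.sum_option
    (fun x : OnePoint (ZMod p.1) ↦ (f ∣[k] Coset_dl p x) ∣[k] heckeRep p.1 x)).symm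
  congr 1
  refine Finset.sum_congr rfl fun x _ => ?_
  show f ∣[k] heckeMatrix p.1 x.val = (f ∣[k] (1 : SL(2, ℤ))) ∣[k] heckeMatrix p.1 x.val
  rw [SlashAction.slash_one]

end CosetAux

open P2MW.S_ModularForm_heckeT_slash_eq_self_of_mem_Gamma0.ModularForm.HeckeSlashInvariance in
theorem Coset_term (k : ℤ) (p : GoodPrime M) [Fact p.1.Prime] {f : ℍ → ℂ} (hf : Inv1 M k f)
    {g : SL(2, ℤ)} (hg : g ∈ Gamma0 M) (x : OnePoint (ZMod p.1)) :
    ((f ∣[k] Coset_dl p x) ∣[k] heckeRep p.1 x) ∣[k] g =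
      ((f ∣[k] g) ∣[k] Coset_dl p (redMatrix p.1 g • x)) ∣[k] heckeRep p.1 (redMatrix p.1 g • x) := by
  have hcN : (M : ℤ) ∣ g 1 0 := (ZMod.intCast_zmod_eq_zero_iff_dvd _ _).mp (Gamma0_mem.mp hg)
  obtain ⟨g', hg', hwt, hmul⟩ := Coset_heckeRep_mul p.2.2 g hcN x
  have hg'N : g' ∈ Gamma0 M :=
    Gamma0_mem.mpr ((ZMod.intCast_zmod_eq_zero_iff_dvd _ _).mpr hg')
  have h1 : (f ∣[k] Coset_dl p x) ∣[k] g'
      = (f ∣[k] g) ∣[k] Coset_dl p (redMatrix p.1 g • x) := by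
    rw [← SlashAction.slash_mul, ← SlashAction.slash_mul]
    refine hf.slash_eq (Subgroup.mul_mem _ (Coset_dl_mem p x) hg'N)
      (Subgroup.mul_mem _ hg (Coset_dl_mem p _)) ?_
    rw [Coset_mul_apply_one_one _ _ (Coset_dl_mem p x), Coset_mul_apply_one_one _ _ hg,
      Coset_dl_apply, Coset_dl_apply, hwt]
  rw [← h1]
  have e1 : ∀ (F : ℍ → ℂ) (γ : SL(2, ℤ)), F ∣[k] γ = F ∣[k] (Matrix.SpecialLinearGroup.mapGL ℝ γ) :=
    fun F γ => rfl
  rw [e1 _ g, e1 _ g', ← SlashAction.slash_mul, ← SlashAction.slash_mul, hmul]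

/-- **Coset lemma.** Port of `Fermat/Prelude/Sol/S_ModularForm_heckeT_slash_eq_self_of_mem_Gamma0`
(`heckeRep_mul`, `heckeT_slash_mapGL`), keeping track of the lower right entry of `g'` mod `M` in the
four cases `j → j'` (`d' ≡ d`), `j → ∞` (`d' ≡ p d`), `∞ → j'` (`d' ≡ p⁻¹ d`), `∞ → ∞` (`d' ≡ d`). -/
theorem heckeFun_slash (k : ℤ) (p : GoodPrime M) {f : ℍ → ℂ} (hf : Inv1 M k f) {g : SL(2, ℤ)}
    (hg : g ∈ Gamma0 M) : heckeFun k p f ∣[k] g = heckeFun k p (f ∣[k] g) := by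
  have : Fact p.1.Prime := ⟨p.2.1⟩
  have : NeZero p.1 := ⟨p.2.1.ne_zero⟩
  rw [Coset_heckeFun_eq_sum, Coset_heckeFun_eq_sum, SlashAction.sum_slash,
    Finset.sum_congr rfl (fun x _ => Coset_term k p hf hg x)]
  exact Equiv.sum_comp (MulAction.toPerm
    (P2MW.S_ModularForm_heckeT_slash_eq_self_of_mem_Gamma0.ModularForm.HeckeSlashInvariance.redMatrix
      p.1 g))
    (fun x ↦ ((f ∣[k] g) ∣[k] Coset_dl p x) ∣[k]
      P2MW.S_ModularForm_heckeT_slash_eq_self_of_mem_Gamma0.ModularForm.HeckeSlashInvariance.heckeRep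
        p.1 x)

theorem heckeFun_inv1 (k : ℤ) (p : GoodPrime M) {f : ℍ → ℂ} (hf : Inv1 M k f) :
    Inv1 M k (heckeFun k p f) := by
  intro g hg
  rw [heckeFun_slash k p hf (Gamma1_in_Gamma0 M hg), hf g hg]

end

end Fermat.Agent.S48.HK
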