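import Fermat.Agent.S48.HK.Coset
import Fermat.Agent.Lib.IS.Nice
import Fermat.Prelude.Thm_CuspFormClass_isZeroAt_heckeT
import Fermat.Prelude.Thm_CuspFormClass_isZeroAt_heckeU
import Fermat.Prelude.Thm_ModularForm_mdifferentiable_heckeT
import Fermat.Prelude.Thm_ModularForm_mdifferentiable_heckeU
import Fermat.Prelude.Thm_ModularFormClass_qCoeff_heckeT
import Fermat.Prelude.Thm_ModularFormClass_qCoeff_heckeU
import Fermat.Prelude.Thm_UpperHalfPlane_eq_of_forall_qCoeff_eq
import Fermat.Prelude.Thm_ModularForm_isBoundedAtImInfty_heckeT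
import Fermat.Prelude.Thm_ModularForm_isBoundedAtImInfty_heckeU
import Fermat.Prelude.Thm_ModularForm_periodic_heckeT_comp_ofComplex
import Fermat.Prelude.Thm_ModularForm_periodic_heckeU_comp_ofComplex

set_option autoImplicit false

/-!
# S48 / HK : the Hecke operators `T_p` (`p ∤ M`) on `CuspForm (Gamma1 M) k`
-/

namespace Fermat.Agent.S48.HK

open CongruenceSubgroup UpperHalfPlane ModularForm ModularFormClass
open scoped MatrixGroups ModularForm Manifold

noncomputable section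

variable {M : ℕ} [NeZero M]

theorem Hecke_heckeFun_eq (k : ℤ) (p : GoodPrime M) (f : CuspForm (Gamma1 M) k) :
    heckeFun k p f = ModularForm.heckeU k p.1 f +
      (ModularForm.heckeT k p.1 (diamond k p.unit f) +
        - ModularForm.heckeU k p.1 (diamond k p.unit f)) := by
  rw [heckeFun, ← coe_diamond, ModularForm.heckeT_eq_heckeU_add]
  abel

theorem Hecke_heckeFun_add (k : ℤ) (p : GoodPrime M) (f g : ℍ → ℂ) :
    heckeFun k p (f + g) = heckeFun k p f + heckeFun k p g := by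
  simp only [heckeFun, ModularForm.heckeU_add, SlashAction.add_slash]
  abel

theorem Hecke_heckeFun_smul (k : ℤ) (p : GoodPrime M) (c : ℂ) (f : ℍ → ℂ) :
    heckeFun k p (c • f) = c • heckeFun k p f := by
  simp only [heckeFun, ModularForm.heckeU_smul, ModularForm.SL_smul_slash, ModularForm.smul_slash,
    ModularForm.σ_heckeDiagMatrix, ContinuousAlgEquiv.refl_apply, smul_add]

theorem Hecke_isZeroAt_neg {c : OnePoint ℝ} {f : ℍ → ℂ} {k : ℤ} (hf : c.IsZeroAt f k) :
    c.IsZeroAt (-f) k := fun g hg => by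
  rw [SlashAction.neg_slash]
  exact (hf g hg).neg

/-- `T_p` on cusp forms for `Γ₁(M)`.  Analytic properties: write
`g ∣ diag = heckeT k p g - heckeU k p g` with `g = ⟨p⟩ f` and use the Prelude theorems
`CuspFormClass.isZeroAt_heckeT/U`, `ModularForm.mdifferentiable_heckeT/U`; invariance:
`heckeFun_inv1`. -/
def heckeT (k : ℤ) (p : GoodPrime M) : CuspForm (Gamma1 M) k →ₗ[ℂ] CuspForm (Gamma1 M) k where
  toFun f :=
    { toFun := heckeFun k p f
      slash_action_eq' := by
        rintro _ ⟨g, hg, rfl⟩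
        exact heckeFun_inv1 k p (inv1_of_form f) g hg
      holo' := by
        show MDiff (heckeFun k p f)
        rw [Hecke_heckeFun_eq]
        exact (ModularForm.mdifferentiable_heckeU (CuspFormClass.holo f) k p.1).add
          ((ModularForm.mdifferentiable_heckeT (CuspFormClass.holo (diamond k p.unit f)) k p.1).add
            (ModularForm.mdifferentiable_heckeU
              (CuspFormClass.holo (diamond k p.unit f)) k p.1).neg)
      zero_at_cusps' := by
        intro c hc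
        show c.IsZeroAt (heckeFun k p f) k
        rw [Hecke_heckeFun_eq]
        exact (CuspFormClass.isZeroAt_heckeU f p.1 hc).add
          ((CuspFormClass.isZeroAt_heckeT (diamond k p.unit f) p.1 hc).add
            (Hecke_isZeroAt_neg (CuspFormClass.isZeroAt_heckeU (diamond k p.unit f) p.1 hc))) }
  map_add' f g := by
    apply DFunLike.coe_injective
    show heckeFun k p (⇑(f + g)) = heckeFun k p f + heckeFun k p g
    rw [FunLike.coe_add, Hecke_heckeFun_add]
  map_smul' c f := by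
    apply DFunLike.coe_injective
    show heckeFun k p (⇑(c • f)) = c • heckeFun k p f
    rw [FunLike.coe_smul, Hecke_heckeFun_smul]

theorem coe_heckeT (k : ℤ) (p : GoodPrime M) (f : CuspForm (Gamma1 M) k) :
    ⇑(heckeT k p f) = heckeFun k p f := rfl

theorem coe_heckeT' (k : ℤ) (p : GoodPrime M) (f : CuspForm (Gamma1 M) k) :
    ⇑(heckeT k p f) =
      ModularForm.heckeU k p.1 f + ⇑(diamond k p.unit f) ∣[k] ModularForm.heckeDiagMatrix p.1 := by
  rw [coe_heckeT, heckeFun, coe_diamond]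

open Fermat.Agent.Lib.IS in
theorem Hecke_nice {k : ℤ} (f : CuspForm (Gamma1 M) k) : Nice f :=
  nice_of_modularForm (one_mem_strictPeriods_Gamma1 M) f

open Fermat.Agent.Lib.IS in
theorem Hecke_nice_heckeU {f : ℍ → ℂ} (hf : Nice f) (k : ℤ) (p : ℕ) :
    Nice (ModularForm.heckeU k p f) :=
  ⟨ModularForm.periodic_heckeU_comp_ofComplex hf.per k p,
    ModularForm.mdifferentiable_heckeU hf.holo k p,
    ModularForm.isBoundedAtImInfty_heckeU hf.bdd k p⟩

open Fermat.Agent.Lib.IS in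
theorem Hecke_nice_heckeT {f : ℍ → ℂ} (hf : Nice f) (k : ℤ) (p : ℕ) :
    Nice (ModularForm.heckeT k p f) :=
  ⟨ModularForm.periodic_heckeT_comp_ofComplex hf.per k p,
    ModularForm.mdifferentiable_heckeT hf.holo k p,
    ModularForm.isBoundedAtImInfty_heckeT hf.bdd k p⟩

open Fermat.Agent.Lib.IS in
theorem Hecke_qCoeff_add {f g : ℍ → ℂ} (hf : Nice f) (hg : Nice g) (n : ℕ) :
    qCoeff (f + g) n = qCoeff f n + qCoeff g n := by
  rw [qCoeff, qExpansion_add hf.analyticAt hg.analyticAt, map_add]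
  rfl

open Fermat.Agent.Lib.IS in
theorem Hecke_qCoeff_neg {f : ℍ → ℂ} (hf : Nice f) (n : ℕ) :
    qCoeff (-f) n = - qCoeff f n := by
  rw [qCoeff, qExpansion_neg hf.analyticAt, map_neg]
  rfl

open Fermat.Agent.Lib.IS in
theorem Hecke_qCoeff_smul {f : ℍ → ℂ} (hf : Nice f) (c : ℂ) (n : ℕ) :
    qCoeff (c • f) n = c * qCoeff f n := by
  rw [qCoeff, qExpansion_smul hf.analyticAt, map_smul, smul_eq_mul]
  rfl

/-- the `q`-expansion of `T_p f`. -/
theorem qCoeff_heckeT (k : ℤ) (p : GoodPrime M) (f : CuspForm (Gamma1 M) k) (n : ℕ) :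
    qCoeff (heckeT k p f) n = qCoeff f (p.1 * n) +
      (p.1 : ℂ) ^ (k - 1) * (if p.1 ∣ n then qCoeff (diamond k p.unit f) (n / p.1) else 0) := by
  have hp0 : p.1 ≠ 0 := p.2.1.ne_zero
  have hf := Hecke_nice f
  have hg := Hecke_nice (diamond k p.unit f)
  rw [coe_heckeT, Hecke_heckeFun_eq,
    Hecke_qCoeff_add (Hecke_nice_heckeU hf k p.1)
      ((Hecke_nice_heckeT hg k p.1).add (Hecke_nice_heckeU hg k p.1).neg),
    Hecke_qCoeff_add (Hecke_nice_heckeT hg k p.1) (Hecke_nice_heckeU hg k p.1).neg,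
    Hecke_qCoeff_neg (Hecke_nice_heckeU hg k p.1),
    ModularFormClass.qCoeff_heckeU f (one_mem_strictPeriods_Gamma1 M) hp0,
    ModularFormClass.qCoeff_heckeU (diamond k p.unit f) (one_mem_strictPeriods_Gamma1 M) hp0,
    ModularFormClass.qCoeff_heckeT (diamond k p.unit f) (one_mem_strictPeriods_Gamma1 M) hp0,
    ModularForm.coeffHeckeT_eq_coeffHeckeU_add, ModularForm.coeffHeckeU_apply, mul_comm n p.1]
  split_ifs <;> ring

/-- a cusp form on `Γ₁(M)` is determined by its `q`-expansion. -/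
theorem eq_of_qCoeff_eq {k : ℤ} {f g : CuspForm (Gamma1 M) k}
    (h : ∀ n, qCoeff f n = qCoeff g n) : f = g := by
  have hf := Hecke_nice f
  have hg := Hecke_nice g
  exact DFunLike.coe_injective
    (UpperHalfPlane.eq_of_forall_qCoeff_eq hf.per hf.holo hf.bdd hg.per hg.holo hg.bdd h)

theorem qCoeff_add {k : ℤ} (f g : CuspForm (Gamma1 M) k) (n : ℕ) :
    qCoeff (⇑(f + g)) n = qCoeff f n + qCoeff g n := by
  rw [FunLike.coe_add, Hecke_qCoeff_add (Hecke_nice f) (Hecke_nice g)]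

theorem qCoeff_smul {k : ℤ} (c : ℂ) (f : CuspForm (Gamma1 M) k) (n : ℕ) :
    qCoeff (⇑(c • f)) n = c * qCoeff f n := by
  rw [FunLike.coe_smul, Hecke_qCoeff_smul (Hecke_nice f)]

theorem qCoeff_zero_cusp {k : ℤ} (f : CuspForm (Gamma1 M) k) : qCoeff f 0 = 0 :=
  CuspFormClass.qExpansion_coeff_zero f one_pos (one_mem_strictPeriods_Gamma1 M)

theorem diamond_heckeT (k : ℤ) (d : (ZMod M)ˣ) (p : GoodPrime M) :
    diamond k d ∘ₗ heckeT k p = heckeT k p ∘ₗ diamond k d := by
  ext1 f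
  apply DFunLike.coe_injective
  rw [LinearMap.comp_apply, LinearMap.comp_apply, coe_diamond, coe_heckeT, coe_heckeT, coe_diamond,
    heckeFun_slash k p (inv1_of_form f) (diaRep_mem M d)]

theorem heckeT_comm (k : ℤ) (p q : GoodPrime M) :
    heckeT k p ∘ₗ heckeT k q = heckeT k q ∘ₗ heckeT k p := by
  by_cases hpq : p = q
  · rw [hpq]
  ext1 f
  apply eq_of_qCoeff_eq
  intro n
  rw [LinearMap.comp_apply, LinearMap.comp_apply]
  have hd1 : diamond k p.unit (heckeT k q f) = heckeT k q (diamond k p.unit f) :=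
    LinearMap.congr_fun (diamond_heckeT k p.unit q) f
  have hd2 : diamond k q.unit (heckeT k p f) = heckeT k p (diamond k q.unit f) :=
    LinearMap.congr_fun (diamond_heckeT k q.unit p) f
  have hd3 : diamond k q.unit (diamond k p.unit f) = diamond k p.unit (diamond k q.unit f) := by
    rw [← LinearMap.comp_apply, ← LinearMap.comp_apply, ← diamond_mul, ← diamond_mul, mul_comm]
  rw [qCoeff_heckeT k p (heckeT k q f), qCoeff_heckeT k q (heckeT k p f), hd1, hd2]
  simp only [qCoeff_heckeT]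
  rw [hd3]
  have hcop : Nat.Coprime p.1 q.1 :=
    (Nat.coprime_primes p.2.1 q.2.1).2 (fun h => hpq (Subtype.ext h))
  have h1 : q.1 ∣ p.1 * n ↔ q.1 ∣ n := hcop.symm.dvd_mul_left
  have h2 : p.1 ∣ q.1 * n ↔ p.1 ∣ n := hcop.dvd_mul_left
  have h3 : p.1 ∣ n → (q.1 ∣ n / p.1 ↔ q.1 ∣ n) := by
    rintro ⟨m, rfl⟩
    rw [Nat.mul_div_cancel_left _ p.2.1.pos, hcop.symm.dvd_mul_left]
  have h4 : q.1 ∣ n → (p.1 ∣ n / q.1 ↔ p.1 ∣ n) := by
    rintro ⟨m, rfl⟩
    rw [Nat.mul_div_cancel_left _ q.2.1.pos, hcop.dvd_mul_left]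
  have e1 : q.1 * (p.1 * n) = p.1 * (q.1 * n) := by ring
  have e2 : q.1 ∣ n → p.1 * n / q.1 = p.1 * (n / q.1) := fun h => Nat.mul_div_assoc _ h
  have e3 : p.1 ∣ n → q.1 * n / p.1 = q.1 * (n / p.1) := fun h => Nat.mul_div_assoc _ h
  have e4 : n / p.1 / q.1 = n / q.1 / p.1 := by
    rw [Nat.div_div_eq_div_mul, Nat.div_div_eq_div_mul, mul_comm]
  rw [e1, e4]
  simp only [h1, h2]
  by_cases hp : p.1 ∣ n <;> by_cases hq : q.1 ∣ n
  · simp only [if_pos hp, if_pos hq, if_pos ((h3 hp).2 hq), if_pos ((h4 hq).2 hp), e2 hq, e3 hp]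
    ring
  · simp only [if_pos hp, if_neg hq, if_neg (fun h => hq ((h3 hp).1 h)), e3 hp]
    ring
  · simp only [if_neg hp, if_pos hq, if_neg (fun h => hp ((h4 hq).1 h)), e2 hq]
    ring
  · simp only [if_neg hp, if_neg hq]
    ring

/-- index set of the generators of the Hecke algebra. -/
abbrev Idx (M : ℕ) : Type := GoodPrime M ⊕ (ZMod M)ˣ

/-- the generators `T_p`, `⟨d⟩` as endomorphisms of `S_k(Γ₁(M))`. -/
def op (k : ℤ) : Idx M → Module.End ℂ (CuspForm (Gamma1 M) k) :=
  Sum.elim (heckeT k) (diamond k)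

theorem op_comm (k : ℤ) (i j : Idx M) : Commute (op (M := M) k i) (op k j) := by
  rcases i with p | d <;> rcases j with q | d'
  · exact heckeT_comm k p q
  · exact (diamond_heckeT k d' p).symm
  · exact diamond_heckeT k d q
  · show diamond k d ∘ₗ diamond k d' = diamond k d' ∘ₗ diamond k d
    rw [← diamond_mul, ← diamond_mul, mul_comm]

/-- a non commutative `ℤ`-polynomial in the `T_p`, `⟨d⟩` acting on `S_k(Γ₁(M))`. -/
def opPoly (k : ℤ) : FreeAlgebra ℤ (Idx M) →ₐ[ℤ] Module.End ℂ (CuspForm (Gamma1 M) k) :=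
  FreeAlgebra.lift ℤ (op k)

/-- A system of eigenvalues `θ : Idx M → κ` (with values in any commutative ring `κ`) **occurs** in
`S_k(Γ₁(M))` if every `ℤ`-polynomial in the `T_p`, `⟨d⟩` which kills `S_k(Γ₁(M))` vanishes at `θ`. -/
def Occurs (M : ℕ) [NeZero M] (k : ℤ) {κ : Type*} [CommRing κ] (θ : Idx M → κ) : Prop :=
  ∀ P : FreeAlgebra ℤ (Idx M), opPoly (M := M) k P = 0 → FreeAlgebra.lift ℤ θ P = 0

end

end Fermat.Agent.S48.HK
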