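import Mathlib
import Fermat.Prelude.Def_FLTPrelim_Modularity

set_option autoImplicit false

/-!
# S48 / HK : diamond operators on `ModularForm (Gamma1 M) k` and `CuspForm (Gamma1 M) k`

`⟨d⟩ f = f ∣[k] γ` for any `γ ∈ Γ₀(M)` whose lower right entry is `≡ d mod M`.
-/

namespace Fermat.Agent.S48.HK

open CongruenceSubgroup UpperHalfPlane ModularForm
open scoped MatrixGroups ModularForm Manifold

noncomputable section

variable (M : ℕ) [NeZero M]

/-- every unit mod `M` is the lower right entry of an element of `Γ₀(M)`. -/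
theorem exists_diaRep (d : (ZMod M)ˣ) :
    ∃ γ : SL(2, ℤ), γ ∈ Gamma0 M ∧ ((γ 1 1 : ℤ) : ZMod M) = (d : ZMod M) := by
  have hcop : IsCoprime (((d : ZMod M).val : ℕ) : ℤ) (M : ℤ) :=
    Nat.isCoprime_iff_coprime.mpr (ZMod.val_coe_unit_coprime d)
  obtain ⟨a, b, hab⟩ := hcop
  have hdet : (!![a, -b; (M : ℤ), (((d : ZMod M).val : ℕ) : ℤ)]).det = 1 := by
    rw [Matrix.det_fin_two_of]
    linarith
  let γ : SL(2, ℤ) := ⟨!![a, -b; (M : ℤ), (((d : ZMod M).val : ℕ) : ℤ)], hdet⟩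
  have hγ : (γ : Matrix (Fin 2) (Fin 2) ℤ) = !![a, -b; (M : ℤ), (((d : ZMod M).val : ℕ) : ℤ)] := rfl
  refine ⟨γ, Gamma0_mem.mpr ?_, ?_⟩
  · rw [hγ]
    simp
  · rw [hγ]
    simp

/-- a chosen element of `Γ₀(M)` with lower right entry `≡ d`. -/
def diaRep (d : (ZMod M)ˣ) : SL(2, ℤ) := (exists_diaRep M d).choose

theorem diaRep_mem (d : (ZMod M)ˣ) : diaRep M d ∈ Gamma0 M := (exists_diaRep M d).choose_spec.1

theorem diaRep_apply (d : (ZMod M)ˣ) : ((diaRep M d 1 1 : ℤ) : ZMod M) = (d : ZMod M) :=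
  (exists_diaRep M d).choose_spec.2

variable {M}

/-- weight `k` invariance under `Γ₁(M)`, on the level of functions. -/
def Inv1 (M : ℕ) (k : ℤ) (f : ℍ → ℂ) : Prop := ∀ γ : SL(2, ℤ), γ ∈ Gamma1 M → f ∣[k] γ = f

/-- two elements of `Γ₀(M)` with the same lower right entry mod `M` act in the same way. -/
theorem Inv1.slash_eq {k : ℤ} {f : ℍ → ℂ} (hf : Inv1 M k f) {γ γ' : SL(2, ℤ)}
    (hγ : γ ∈ Gamma0 M) (hγ' : γ' ∈ Gamma0 M)
    (h : ((γ 1 1 : ℤ) : ZMod M) = ((γ' 1 1 : ℤ) : ZMod M)) : f ∣[k] γ = f ∣[k] γ' := by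
  rw [Gamma0_mem] at hγ hγ'
  have hdet : ((γ 0 0 : ℤ) : ZMod M) * ((γ 1 1 : ℤ) : ZMod M) = 1 := by
    have h1 := γ.det_coe
    rw [Matrix.det_fin_two] at h1
    have h2 := congrArg (Int.cast : ℤ → ZMod M) h1
    push_cast at h2
    rw [hγ, mul_zero, sub_zero] at h2
    exact h2
  have hdet' : ((γ' 0 0 : ℤ) : ZMod M) * ((γ' 1 1 : ℤ) : ZMod M) = 1 := by
    have h1 := γ'.det_coe
    rw [Matrix.det_fin_two] at h1
    have h2 := congrArg (Int.cast : ℤ → ZMod M) h1
    push_cast at h2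
    rw [hγ', mul_zero, sub_zero] at h2
    exact h2
  have hmem : γ * γ'⁻¹ ∈ Gamma1 M := by
    have hinv : ((γ'⁻¹ : SL(2, ℤ)) : Matrix (Fin 2) (Fin 2) ℤ)
        = !![γ' 1 1, -γ' 0 1; -γ' 1 0, γ' 0 0] := by
      rw [Matrix.SpecialLinearGroup.coe_inv, Matrix.adjugate_fin_two]
    rw [Gamma1_mem]
    simp only [Matrix.SpecialLinearGroup.coe_mul, hinv, Matrix.mul_apply, Fin.sum_univ_two,
      Matrix.of_apply, Matrix.cons_val_zero, Matrix.cons_val_one,
      Matrix.cons_val', Matrix.cons_val_fin_one]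
    push_cast
    rw [hγ, hγ']
    refine ⟨?_, ?_, ?_⟩
    · rw [← h, hdet]
      ring
    · rw [h, mul_comm ((γ' 1 1 : ℤ) : ZMod M), hdet']
      ring
    · ring
  have h3 : γ = (γ * γ'⁻¹) * γ' := by group
  conv_lhs => rw [h3, SlashAction.slash_mul, hf _ hmem]

/-- `Γ₀(M)` normalises `Γ₁(M)`. -/
theorem Inv1.slash {k : ℤ} {f : ℍ → ℂ} (hf : Inv1 M k f) {γ : SL(2, ℤ)} (hγ : γ ∈ Gamma0 M) :
    Inv1 M k (f ∣[k] γ) := by
  intro δ hδ
  rw [← SlashAction.slash_mul]
  have hδ0 : δ ∈ Gamma0 M := Gamma1_in_Gamma0 M hδ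
  refine hf.slash_eq ((Gamma0 M).mul_mem hγ hδ0) hγ ?_
  rw [Gamma0_mem] at hγ
  rw [Gamma1_mem] at hδ
  simp only [Matrix.SpecialLinearGroup.coe_mul, Matrix.mul_apply, Fin.sum_univ_two]
  push_cast
  rw [hγ, hδ.2.1]
  ring

theorem inv1_of_form {k : ℤ} {F : Type*} [FunLike F ℍ ℂ]
    [SlashInvariantFormClass F (Gamma1 M : Subgroup (GL (Fin 2) ℝ)) k] (f : F) : Inv1 M k f := by
  intro γ hγ
  rw [SL_slash]
  exact SlashInvariantFormClass.slash_action_eq f _ ⟨γ, hγ, rfl⟩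

/-- the diamond operator on modular forms. -/
def diamondMF (k : ℤ) (d : (ZMod M)ˣ) :
    ModularForm (Gamma1 M) k →ₗ[ℂ] ModularForm (Gamma1 M) k where
  toFun f :=
    { toFun := ⇑f ∣[k] diaRep M d
      slash_action_eq' := by
        rintro _ ⟨γ, hγ, rfl⟩
        exact (SL_slash _ γ).symm.trans ((inv1_of_form f).slash (diaRep_mem M d) γ hγ)
      holo' := by
        show MDiff (⇑f ∣[k] diaRep M d)
        rw [SL_slash]
        exact (ModularFormClass.holo f).slash k _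
      bdd_at_cusps' := by
        intro c hc
        rw [Subgroup.IsArithmetic.isCusp_iff_isCusp_SL2Z] at hc
        rw [OnePoint.isBoundedAt_iff_forall_SL2Z hc]
        intro γ _
        rw [← SlashAction.slash_mul]
        exact ModularFormClass.bdd_at_infty_slash f _ }
  map_add' f g := by
    ext z
    exact congrFun (SlashAction.add_slash k (diaRep M d) (⇑f) (⇑g)) z
  map_smul' c f := by
    ext z
    exact congrFun (SL_smul_slash k (diaRep M d) (⇑f) c) z

/-- the diamond operator on cusp forms. -/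
def diamond (k : ℤ) (d : (ZMod M)ˣ) :
    CuspForm (Gamma1 M) k →ₗ[ℂ] CuspForm (Gamma1 M) k where
  toFun f :=
    { toFun := ⇑f ∣[k] diaRep M d
      slash_action_eq' := by
        rintro _ ⟨γ, hγ, rfl⟩
        exact (SL_slash _ γ).symm.trans ((inv1_of_form f).slash (diaRep_mem M d) γ hγ)
      holo' := by
        show MDiff (⇑f ∣[k] diaRep M d)
        rw [SL_slash]
        exact (CuspFormClass.holo f).slash k _
      zero_at_cusps' := by
        intro c hc
        rw [Subgroup.IsArithmetic.isCusp_iff_isCusp_SL2Z] at hc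
        rw [OnePoint.isZeroAt_iff_forall_SL2Z hc]
        intro γ _
        rw [← SlashAction.slash_mul]
        exact CuspFormClass.zero_at_infty_slash f _ }
  map_add' f g := by
    ext z
    exact congrFun (SlashAction.add_slash k (diaRep M d) (⇑f) (⇑g)) z
  map_smul' c f := by
    ext z
    exact congrFun (SL_smul_slash k (diaRep M d) (⇑f) c) z

theorem coe_diamondMF (k : ℤ) (d : (ZMod M)ˣ) (f : ModularForm (Gamma1 M) k) :
    ⇑(diamondMF k d f) = ⇑f ∣[k] diaRep M d := rfl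

theorem coe_diamond (k : ℤ) (d : (ZMod M)ˣ) (f : CuspForm (Gamma1 M) k) :
    ⇑(diamond k d f) = ⇑f ∣[k] diaRep M d := rfl

theorem slash_eq_diamondMF {k : ℤ} (f : ModularForm (Gamma1 M) k) {γ : SL(2, ℤ)}
    (hγ : γ ∈ Gamma0 M) (d : (ZMod M)ˣ) (h : ((γ 1 1 : ℤ) : ZMod M) = (d : ZMod M)) :
    ⇑f ∣[k] γ = ⇑(diamondMF k d f) := by
  rw [coe_diamondMF]
  exact (inv1_of_form f).slash_eq hγ (diaRep_mem M d) (h.trans (diaRep_apply M d).symm)

theorem slash_eq_diamond {k : ℤ} (f : CuspForm (Gamma1 M) k) {γ : SL(2, ℤ)}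
    (hγ : γ ∈ Gamma0 M) (d : (ZMod M)ˣ) (h : ((γ 1 1 : ℤ) : ZMod M) = (d : ZMod M)) :
    ⇑f ∣[k] γ = ⇑(diamond k d f) := by
  rw [coe_diamond]
  exact (inv1_of_form f).slash_eq hγ (diaRep_mem M d) (h.trans (diaRep_apply M d).symm)

/-- the lower right entry of `diaRep d' * diaRep d`. -/
theorem diaRep_mul_apply (d' d : (ZMod M)ˣ) :
    (((diaRep M d' * diaRep M d) 1 1 : ℤ) : ZMod M) = ((d * d' : (ZMod M)ˣ) : ZMod M) := by
  have h0 := diaRep_mem M d'
  rw [Gamma0_mem] at h0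
  simp only [Matrix.SpecialLinearGroup.coe_mul, Matrix.mul_apply, Fin.sum_univ_two]
  push_cast
  rw [h0, diaRep_apply, diaRep_apply]
  ring

theorem diamond_one (k : ℤ) : diamond (M := M) k 1 = LinearMap.id := by
  ext f z
  have h := slash_eq_diamond f (γ := 1) (Gamma0 M).one_mem 1 (by simp)
  rw [SlashAction.slash_one] at h
  exact (congrFun h z).symm

theorem diamond_mul (k : ℤ) (d d' : (ZMod M)ˣ) :
    diamond (M := M) k (d * d') = diamond k d ∘ₗ diamond k d' := by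
  ext f z
  have h := slash_eq_diamond f (γ := diaRep M d' * diaRep M d)
    ((Gamma0 M).mul_mem (diaRep_mem M d') (diaRep_mem M d)) (d * d') (diaRep_mul_apply d' d)
  rw [SlashAction.slash_mul, ← coe_diamond, ← coe_diamond] at h
  exact (congrFun h z).symm

theorem diamondMF_one (k : ℤ) : diamondMF (M := M) k 1 = LinearMap.id := by
  ext f z
  have h := slash_eq_diamondMF f (γ := 1) (Gamma0 M).one_mem 1 (by simp)
  rw [SlashAction.slash_one] at h
  exact (congrFun h z).symm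

theorem diamondMF_mul (k : ℤ) (d d' : (ZMod M)ˣ) :
    diamondMF (M := M) k (d * d') = diamondMF k d ∘ₗ diamondMF k d' := by
  ext f z
  have h := slash_eq_diamondMF f (γ := diaRep M d' * diaRep M d)
    ((Gamma0 M).mul_mem (diaRep_mem M d') (diaRep_mem M d)) (d * d') (diaRep_mul_apply d' d)
  rw [SlashAction.slash_mul, ← coe_diamondMF, ← coe_diamondMF] at h
  exact (congrFun h z).symm

theorem one_mem_strictPeriods_Gamma1 (M : ℕ) :
    (1 : ℝ) ∈ (Gamma1 M : Subgroup (GL (Fin 2) ℝ)).strictPeriods := by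
  simp

end

end Fermat.Agent.S48.HK
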